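/-
S34 support (helper230): reduction of a finite free algebra modulo an arbitrary ideal of the base.

For `I : Ideal R` and a basis `b` of the `R`-algebra `B`, the images of `b` form a basis of
`B ⧸ I B` over `R ⧸ I`; left-multiplication matrices, traces, trace matrices and discriminants
commute with the reduction.
-/
import Mathlib

set_option autoImplicit false
set_option linter.unusedSectionVars false

namespace Fermat.Agent.S34.Lib.QuotBasis

open Module

variable {R B : Type*} [CommRing R] [CommRing B] [Algebra R B]
variable {ι : Type*} [Fintype ι] [DecidableEq ι]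

/-- Coordinates of an element of `I B` lie in `I`. -/
theorem repr_mem_of_mem_map (I : Ideal R) (b : Basis ι R B) {x : B}
    (hx : x ∈ I.map (algebraMap R B)) : ∀ i : ι, b.repr x i ∈ I := by
  unfold Ideal.map at hx
  induction hx using Submodule.span_induction with
  | mem y hy =>
    intro i
    obtain ⟨a, ha, rfl⟩ := hy
    have : algebraMap R B a = a • (1 : B) := by rw [Algebra.smul_def, mul_one]
    rw [this, map_smul, Finsupp.smul_apply, smul_eq_mul]
    exact I.mul_mem_right _ ha
  | zero => intro i; simp
  | add y z _ _ hy hz =>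
    intro i
    rw [map_add, Finsupp.add_apply]
    exact I.add_mem (hy i) (hz i)
  | smul a y _ hy =>
    intro i
    have h1 : a • y = ∑ j, b.repr a j • (b j * y) := by
      conv_lhs => rw [← b.sum_repr a]
      rw [Finset.sum_smul]
      refine Finset.sum_congr rfl fun j _ => ?_
      rw [smul_eq_mul, smul_mul_assoc]
    have h2 : ∀ j, b.repr (b j * y) i ∈ I := by
      intro j
      have h3 : b j * y = ∑ k, b.repr y k • (b j * b k) := by
        conv_lhs => rw [← b.sum_repr y]
        rw [Finset.mul_sum]
        refine Finset.sum_congr rfl fun k _ => ?_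
        rw [mul_smul_comm]
      rw [h3, map_sum, Finsupp.coe_finsetSum, Finset.sum_apply]
      refine I.sum_mem fun k _ => ?_
      rw [map_smul, Finsupp.smul_apply, smul_eq_mul]
      exact I.mul_mem_right _ (hy k)
    rw [h1, map_sum, Finsupp.coe_finsetSum, Finset.sum_apply]
    refine I.sum_mem fun j _ => ?_
    rw [map_smul, Finsupp.smul_apply, smul_eq_mul]
    exact I.mul_mem_left _ (h2 j)

/-- Conversely, an element all of whose coordinates lie in `I` is in `I B`. -/
theorem mem_map_of_repr_mem (I : Ideal R) (b : Basis ι R B) {x : B}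
    (hx : ∀ i : ι, b.repr x i ∈ I) : x ∈ I.map (algebraMap R B) := by
  rw [← b.sum_repr x]
  refine Ideal.sum_mem _ fun i _ => ?_
  rw [Algebra.smul_def]
  exact Ideal.mul_mem_right _ _ (Ideal.mem_map_of_mem _ (hx i))

/-- The coordinate map of the reduction. -/
noncomputable def quotRepr (I : Ideal R) (b : Basis ι R B) :
    (B ⧸ I.map (algebraMap R B)) →ₗ[R] (ι → R ⧸ I) :=
  Submodule.liftQ ((I.map (algebraMap R B)).restrictScalars R)
    ((LinearMap.pi fun i => (Ideal.Quotient.mkₐ R I).toLinearMap ∘ₗ
      (Finsupp.lapply i : (ι →₀ R) →ₗ[R] R)) ∘ₗ b.repr.toLinearMap)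
    (by
      intro x hx
      rw [LinearMap.mem_ker]
      funext i
      simp only [LinearMap.coe_comp, LinearEquiv.coe_coe, Function.comp_apply, LinearMap.pi_apply,
        Finsupp.lapply_apply, AlgHom.toLinearMap_apply, Ideal.Quotient.mkₐ_eq_mk, Pi.zero_apply]
      exact Ideal.Quotient.eq_zero_iff_mem.mpr (repr_mem_of_mem_map I b hx i))

theorem quotRepr_mk (I : Ideal R) (b : Basis ι R B) (x : B) (i : ι) :
    quotRepr I b (Ideal.Quotient.mk _ x) i = Ideal.Quotient.mk I (b.repr x i) := rfl

/-- The reduced family is a basis of `B ⧸ I B` over `R ⧸ I`. -/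
noncomputable def quotBasis (I : Ideal R) (b : Basis ι R B) :
    Basis ι (R ⧸ I) (B ⧸ I.map (algebraMap R B)) :=
  Basis.ofEquivFun
    { toFun := quotRepr I b
      map_add' := fun x y => map_add _ x y
      map_smul' := by
        intro r x
        obtain ⟨r, rfl⟩ := Ideal.Quotient.mk_surjective r
        obtain ⟨x, rfl⟩ := Ideal.Quotient.mk_surjective x
        funext i
        have h1 : (Ideal.Quotient.mk I r) • (Ideal.Quotient.mk (I.map (algebraMap R B)) x) =
            Ideal.Quotient.mk (I.map (algebraMap R B)) (r • x) := by
          rw [Algebra.smul_def, Algebra.smul_def, map_mul]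
          rfl
        rw [h1, RingHom.id_apply, Pi.smul_apply, quotRepr_mk, quotRepr_mk, map_smul,
          Finsupp.smul_apply, smul_eq_mul, smul_eq_mul, map_mul]
      invFun := fun f => ∑ i, f i • Ideal.Quotient.mk (I.map (algebraMap R B)) (b i)
      left_inv := by
        intro x
        obtain ⟨x, rfl⟩ := Ideal.Quotient.mk_surjective x
        have h1 : ∀ i, (Ideal.Quotient.mk I (b.repr x i)) •
            (Ideal.Quotient.mk (I.map (algebraMap R B)) (b i)) =
            Ideal.Quotient.mk (I.map (algebraMap R B)) (b.repr x i • b i) := by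
          intro i
          rw [Algebra.smul_def, Algebra.smul_def, map_mul]
          rfl
        simp only [quotRepr_mk, h1]
        rw [← map_sum, b.sum_repr]
      right_inv := by
        intro f
        funext i
        choose g hg using fun j => Ideal.Quotient.mk_surjective (f j)
        have h1 : ∀ j, f j • (Ideal.Quotient.mk (I.map (algebraMap R B)) (b j)) =
            Ideal.Quotient.mk (I.map (algebraMap R B)) (g j • b j) := by
          intro j
          rw [← hg j, Algebra.smul_def, Algebra.smul_def, map_mul]
          rfl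
        simp only [h1]
        rw [← map_sum, quotRepr_mk, map_sum, Finsupp.coe_finsetSum, Finset.sum_apply]
        simp only [map_smul, Basis.repr_self, Finsupp.smul_apply, Finsupp.single_apply,
          smul_eq_mul, mul_ite, mul_one, mul_zero, Finset.sum_ite_eq', Finset.mem_univ, if_true]
        exact hg i }

theorem quotBasis_repr (I : Ideal R) (b : Basis ι R B) (x : B) (i : ι) :
    (quotBasis I b).repr (Ideal.Quotient.mk _ x) i = Ideal.Quotient.mk I (b.repr x i) := rfl

theorem quotBasis_apply (I : Ideal R) (b : Basis ι R B) (i : ι) :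
    quotBasis I b i = Ideal.Quotient.mk (I.map (algebraMap R B)) (b i) := by
  apply (quotBasis I b).repr.injective
  ext j
  rw [quotBasis_repr, Basis.repr_self, Basis.repr_self, Finsupp.single_apply,
    Finsupp.single_apply]
  split_ifs <;> simp

/-- Left-multiplication matrices commute with reduction. -/
theorem leftMulMatrix_quotBasis (I : Ideal R) (b : Basis ι R B) (x : B) :
    Algebra.leftMulMatrix (quotBasis I b) (Ideal.Quotient.mk (I.map (algebraMap R B)) x) =
      (Algebra.leftMulMatrix b x).map (Ideal.Quotient.mk I) := by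
  ext i j
  rw [Algebra.leftMulMatrix_eq_repr_mul, Matrix.map_apply, Algebra.leftMulMatrix_eq_repr_mul,
    quotBasis_apply, ← map_mul, quotBasis_repr]

/-- Traces commute with reduction modulo an ideal of the base. -/
theorem trace_quotient_mk (I : Ideal R) (b : Basis ι R B) (x : B) :
    Algebra.trace (R ⧸ I) (B ⧸ I.map (algebraMap R B)) (Ideal.Quotient.mk _ x) =
      Ideal.Quotient.mk I (Algebra.trace R B x) := by
  rw [Algebra.trace_eq_matrix_trace (quotBasis I b), Algebra.trace_eq_matrix_trace b,
    leftMulMatrix_quotBasis]
  exact (AddMonoidHom.map_trace (Ideal.Quotient.mk I).toAddMonoidHom _).symm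

theorem traceMatrix_quotBasis (I : Ideal R) (b : Basis ι R B) :
    Algebra.traceMatrix (R ⧸ I) (quotBasis I b) =
      (Algebra.traceMatrix R b).map (Ideal.Quotient.mk I) := by
  ext i j
  rw [Algebra.traceMatrix_apply, Algebra.traceForm_apply, Matrix.map_apply,
    Algebra.traceMatrix_apply, Algebra.traceForm_apply, quotBasis_apply, quotBasis_apply,
    ← map_mul, trace_quotient_mk I b]

/-- **Discriminants commute with reduction modulo an ideal of the base.** -/
theorem discr_quotBasis (I : Ideal R) (b : Basis ι R B) :
    Algebra.discr (R ⧸ I) (quotBasis I b) = Ideal.Quotient.mk I (Algebra.discr R b) := by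
  rw [Algebra.discr_def, traceMatrix_quotBasis, Algebra.discr_def]
  exact (RingHom.map_det (Ideal.Quotient.mk I) _).symm

/-- `discr ≠ 0` downstairs iff the discriminant is not in the ideal. -/
theorem discr_quotBasis_ne_zero_iff (I : Ideal R) (b : Basis ι R B) :
    Algebra.discr (R ⧸ I) (quotBasis I b) ≠ 0 ↔ Algebra.discr R b ∉ I := by
  rw [discr_quotBasis, Ne, Ideal.Quotient.eq_zero_iff_mem]

/-- Association of discriminants passes to the reduction. -/
theorem associated_discr_quotBasis {C : Type*} [CommRing C] [Algebra R C] {ι' : Type*}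
    [Fintype ι'] [DecidableEq ι'] (I : Ideal R) (b : Basis ι R B) (c : Basis ι' R C) (d : ℕ)
    (h : Associated (Algebra.discr R c) (Algebra.discr R b ^ d)) :
    Associated (Algebra.discr (R ⧸ I) (quotBasis I c)) (Algebra.discr (R ⧸ I) (quotBasis I b) ^ d) := by
  rw [discr_quotBasis, discr_quotBasis, ← map_pow]
  exact h.map (Ideal.Quotient.mk I)

end Fermat.Agent.S34.Lib.QuotBasis
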