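/-
S34 support (helper230): discriminant versus colength over a PID / DVR.

For a submodule `M ≤ N` of full rank in a finite free module over a PID `S`, with inclusion matrix
`P`, the length of `N ⧸ M` is the order of vanishing of `det P`.  For a subalgebra `C` of a finite
free `S`-algebra `N` of the same rank, the trace of `C` is the restriction of the trace of `N`,
`discr C = (det P)^2 * discr N`, and over a DVR
`addVal (discr C) = addVal (discr N) + 2 * length (N ⧸ C)`.
-/
import Mathlib

set_option autoImplicit false
set_option linter.unusedSectionVars false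

namespace Fermat.Agent.S34.Lib.DiscColength

open Module Matrix

section Colength

variable {S : Type*} [CommRing S] [IsDomain S] [IsPrincipalIdealRing S]
variable {N : Type*} [AddCommGroup N] [Module S N]
variable {ι : Type*} [Fintype ι] [DecidableEq ι]

theorem ord_prod (a : ι → S) (ha : ∀ i, a i ≠ 0) :
    Ring.ord S (∏ i, a i) = ∑ i, Ring.ord S (a i) := by
  classical
  have key : ∀ s : Finset ι, Ring.ord S (∏ i ∈ s, a i) = ∑ i ∈ s, Ring.ord S (a i) := by
    intro s
    induction s using Finset.induction_on with
    | empty => simp
    | insert i s his ih =>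
      rw [Finset.prod_insert his, Finset.sum_insert his, Ring.ord_mul' S, ih]
      exact mem_nonZeroDivisors_of_ne_zero (ha i)
  exact key Finset.univ

theorem length_pi_quotient_span (a : ι → S) :
    Module.length S (Π i, S ⧸ Ideal.span ({a i} : Set S)) = ∑ i, Ring.ord S (a i) := by
  rw [Module.length_pi_of_fintype]
  rfl

/-- The inclusion matrix of a full-rank submodule. -/
noncomputable def inclMatrix (M : Submodule S N) (bN : Basis ι S N) (bM : Basis ι S M) :
    Matrix ι ι S :=
  bN.toMatrix (fun j => (bM j : N))

theorem finrank_eq_of_bases (M : Submodule S N) (bN : Basis ι S N) (bM : Basis ι S M) :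
    Module.finrank S M = Module.finrank S N := by
  rw [Module.finrank_eq_card_basis bN, Module.finrank_eq_card_basis bM]

/-- **Colength = order of the determinant** (PID version). -/
theorem length_quotient_eq_ord_det (M : Submodule S N) (bN : Basis ι S N) (bM : Basis ι S M) :
    Module.length S (N ⧸ M) = Ring.ord S (inclMatrix M bN bM).det := by
  classical
  have h := finrank_eq_of_bases M bN bM
  set a := Submodule.smithNormalFormCoeffs bN h with ha
  set b' := Submodule.smithNormalFormTopBasis bN h with hb'
  set ab := Submodule.smithNormalFormBotBasis bN h with hab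
  have ab_eq : ∀ i, (ab i : N) = a i • b' i := Submodule.smithNormalFormBotBasis_def bN h
  have ha0 : ∀ i, a i ≠ 0 := Submodule.smithNormalFormCoeffs_ne_zero bN h
  -- the length
  have hlen : Module.length S (N ⧸ M) = Ring.ord S (∏ i, a i) := by
    rw [ord_prod a ha0, ← length_pi_quotient_span a]
    exact (Submodule.quotientEquivPiSpan M bN h).length_eq
  -- the determinant
  have hmid : b'.toMatrix (fun j => (bM j : N)) = Matrix.diagonal a * ab.toMatrix bM := by
    ext i j
    rw [Matrix.diagonal_mul, Basis.toMatrix_apply, Basis.toMatrix_apply]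
    have h1 : (bM j : N) = ∑ k, (ab.repr (bM j) k) • (a k • b' k) := by
      conv_lhs => rw [← ab.sum_repr (bM j)]
      rw [Submodule.coe_sum]
      refine Finset.sum_congr rfl fun k _ => ?_
      rw [Submodule.coe_smul, ab_eq]
    rw [h1, map_sum, Finset.sum_apply']
    simp only [map_smul, Basis.repr_self, Finsupp.smul_apply, Finsupp.single_apply, smul_eq_mul]
    rw [Finset.sum_eq_single i]
    · simp [mul_comm]
    · intro k _ hk
      simp [hk]
    · intro hi
      exact absurd (Finset.mem_univ i) hi
  have hfac : inclMatrix M bN bM = bN.toMatrix b' * (Matrix.diagonal a * ab.toMatrix bM) := by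
    rw [← hmid, inclMatrix, Basis.toMatrix_mul_toMatrix]
  have hu1 : IsUnit (bN.toMatrix b').det := by
    have : bN.toMatrix b' * b'.toMatrix bN = 1 := Basis.toMatrix_mul_toMatrix_flip bN b'
    exact IsUnit.of_mul_eq_one _ (by rw [← Matrix.det_mul, this, Matrix.det_one])
  have hu2 : IsUnit (ab.toMatrix bM).det := by
    have : ab.toMatrix bM * bM.toMatrix ab = 1 := Basis.toMatrix_mul_toMatrix_flip ab bM
    exact IsUnit.of_mul_eq_one _ (by rw [← Matrix.det_mul, this, Matrix.det_one])
  rw [hlen, hfac, Matrix.det_mul, Matrix.det_mul, Matrix.det_diagonal,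
    Ring.ord_mul_of_isUnit_left hu1, Ring.ord_mul_of_isUnit_right hu2]

end Colength

section Discr

variable {S : Type*} [CommRing S] [IsDomain S]
variable {N : Type*} [CommRing N] [Algebra S N]
variable {ι : Type*} [Fintype ι] [DecidableEq ι]

/-- The inclusion matrix of a subalgebra (columns = coordinates of the basis of `C`). -/
noncomputable def inclMatrixAlg (C : Subalgebra S N) (bN : Basis ι S N) (bC : Basis ι S C) :
    Matrix ι ι S :=
  bN.toMatrix (fun j => (bC j : N))

theorem inclMatrixAlg_eq_toMatrix (C : Subalgebra S N) (bN : Basis ι S N) (bC : Basis ι S C) :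
    inclMatrixAlg C bN bC = LinearMap.toMatrix bC bN C.val.toLinearMap := by
  ext i j
  simp [inclMatrixAlg, LinearMap.toMatrix_apply, Basis.toMatrix_apply]

theorem det_inclMatrixAlg_ne_zero (C : Subalgebra S N) (bN : Basis ι S N) (bC : Basis ι S C) :
    (inclMatrixAlg C bN bC).det ≠ 0 := by
  intro h0
  obtain ⟨v, hv, hv0⟩ := Matrix.exists_mulVec_eq_zero_iff.mpr h0
  apply hv
  have h1 : (∑ j, v j • (bC j : N)) = 0 := by
    apply bN.repr.injective
    ext i
    have := congrFun hv0 i
    simp only [Matrix.mulVec, dotProduct, inclMatrixAlg, Basis.toMatrix_apply, Pi.zero_apply] at this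
    simp only [map_sum, map_smul, Finsupp.coe_finsetSum, Finset.sum_apply, Finsupp.smul_apply,
      smul_eq_mul, map_zero, Finsupp.zero_apply]
    rw [← this]
    exact Finset.sum_congr rfl fun j _ => mul_comm _ _
  have h2 : (∑ j, v j • bC j) = 0 := by
    apply Subtype.ext
    have hc : ((∑ j, v j • bC j : C) : N) = ∑ j, v j • (bC j : N) := by simp
    rw [hc, h1]
    rfl
  have h3 := (Fintype.linearIndependent_iff.mp bC.linearIndependent) v h2
  funext j
  exact h3 j

/-- The trace of a full-rank subalgebra is the restriction of the trace. -/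
theorem trace_subalgebra_eq (C : Subalgebra S N) (bN : Basis ι S N) (bC : Basis ι S C) (x : C) :
    Algebra.trace S C x = Algebra.trace S N (x : N) := by
  set P := inclMatrixAlg C bN bC with hP
  have hdet : P.det ≠ 0 := det_inclMatrixAlg_ne_zero C bN bC
  set A := LinearMap.toMatrix bN bN (Algebra.lmul S N (x : N)) with hA
  set A' := LinearMap.toMatrix bC bC (Algebra.lmul S C x) with hA'
  have hcomm : P * A' = A * P := by
    rw [hP, inclMatrixAlg_eq_toMatrix, hA', hA, ← LinearMap.toMatrix_comp, ← LinearMap.toMatrix_comp]
    congr 1
  have htr : P.det * Matrix.trace A' = P.det * Matrix.trace A := by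
    have e1 : P.adjugate * (P * A') = P.det • A' := by
      rw [← Matrix.mul_assoc, Matrix.adjugate_mul, Matrix.smul_mul, Matrix.one_mul]
    have e2 : Matrix.trace (P.adjugate * (A * P)) = P.det * Matrix.trace A := by
      rw [Matrix.trace_mul_comm, Matrix.mul_assoc, Matrix.mul_adjugate, Matrix.mul_smul,
        Matrix.mul_one, Matrix.trace_smul, smul_eq_mul]
    rw [← e2, ← hcomm, e1, Matrix.trace_smul, smul_eq_mul]
  have h1 : Algebra.trace S C x = Matrix.trace A' := by
    rw [Algebra.trace_apply, LinearMap.trace_eq_matrix_trace S bC]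
  have h2 : Algebra.trace S N (x : N) = Matrix.trace A := by
    rw [Algebra.trace_apply, LinearMap.trace_eq_matrix_trace S bN]
  rw [h1, h2]
  exact mul_left_cancel₀ hdet htr

/-- **Discriminant of a full-rank subalgebra.** -/
theorem discr_subalgebra_eq (C : Subalgebra S N) (bN : Basis ι S N) (bC : Basis ι S C) :
    Algebra.discr S bC = (inclMatrixAlg C bN bC).det ^ 2 * Algebra.discr S bN := by
  have h1 : Algebra.discr S bC = Algebra.discr S (fun j => (bC j : N)) := by
    rw [Algebra.discr_def, Algebra.discr_def]
    congr 1
    ext i j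
    rw [Algebra.traceMatrix_apply, Algebra.traceMatrix_apply, Algebra.traceForm_apply,
      Algebra.traceForm_apply, trace_subalgebra_eq C bN bC]
    rfl
  have h2 : (fun j => (bC j : N)) =
      (bN : ι → N) ᵥ* (inclMatrixAlg C bN bC).map (algebraMap S N) := by
    funext j
    simp only [Matrix.vecMul, dotProduct, Matrix.map_apply, inclMatrixAlg]
    rw [← Basis.sum_toMatrix_smul_self bN (fun j => (bC j : N)) j]
    refine Finset.sum_congr rfl fun i _ => ?_
    rw [Algebra.smul_def, mul_comm]
  rw [h1, h2, Algebra.discr_of_matrix_vecMul]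

end Discr

section DVR

variable {S : Type*} [CommRing S] [IsDomain S] [IsDiscreteValuationRing S]
variable {N : Type*} [CommRing N] [Algebra S N]
variable {ι : Type*} [Fintype ι] [DecidableEq ι]

open IsDiscreteValuationRing

/-- Colength of a full-rank subalgebra over a DVR is the valuation of the inclusion determinant. -/
theorem length_quotient_subalgebra (C : Subalgebra S N) (bN : Basis ι S N) (bC : Basis ι S C) :
    Module.length S (N ⧸ Subalgebra.toSubmodule C) = addVal S (inclMatrixAlg C bN bC).det := by
  have h := length_quotient_eq_ord_det (Subalgebra.toSubmodule C) bN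
    (bC.map (Subalgebra.toSubmoduleEquiv C).symm)
  rw [h, Ring.ord_eq_addVal]
  congr 2

/-- **Discriminant versus colength over a DVR**:
`v(disc C) = v(disc N) + 2 * length (N / C)` for a subalgebra `C` of full rank. -/
theorem addVal_discr_eq (C : Subalgebra S N) (bN : Basis ι S N) (bC : Basis ι S C) :
    addVal S (Algebra.discr S bC) =
      addVal S (Algebra.discr S bN) + 2 * Module.length S (N ⧸ Subalgebra.toSubmodule C) := by
  rw [discr_subalgebra_eq C bN bC, length_quotient_subalgebra C bN bC, AddValuation.map_mul,
    AddValuation.map_pow, add_comm, nsmul_eq_mul]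
  rfl

/-- Version for an injective algebra map `C → N` between finite free algebras of the same rank. -/
theorem addVal_discr_eq_of_injective {C : Type*} [CommRing C] [Algebra S C] (f : C →ₐ[S] N)
    (hf : Function.Injective f) (bN : Basis ι S N) (bC : Basis ι S C) :
    addVal S (Algebra.discr S bC) =
      addVal S (Algebra.discr S bN) + 2 * Module.length S (N ⧸ Subalgebra.toSubmodule f.range) := by
  have e : C ≃ₐ[S] f.range := AlgEquiv.ofInjective f hf
  have h := addVal_discr_eq f.range bN (bC.map e.toLinearEquiv)
  rw [← h, Algebra.discr_eq_discr_of_algEquiv (bC : ι → C) e]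
  rfl

end DVR

end Fermat.Agent.S34.Lib.DiscColength
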