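/-
S34 support (helper230): discriminants of product algebras, independence of the basis,
non-vanishing for separable fraction fields, and the numerical core of the colength count.
-/
import Mathlib

set_option autoImplicit false
set_option linter.unusedSectionVars false

namespace Fermat.Agent.S34.Lib.DiscProd

open Module Matrix

section Pi

variable {S : Type*} [CommRing S]
variable {η : Type*} [Fintype η] [DecidableEq η]
variable {κ : η → Type*} [∀ i, Fintype (κ i)] [∀ i, DecidableEq (κ i)]
variable {A : η → Type*} [∀ i, CommRing (A i)] [∀ i, Algebra S (A i)]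

/-- Trace on a finite product of finite free algebras. -/
theorem trace_pi (b : ∀ i, Basis (κ i) S (A i)) (x : Π i, A i) :
    Algebra.trace S (Π i, A i) x = ∑ i, Algebra.trace S (A i) (x i) := by
  rw [Algebra.trace_eq_matrix_trace (Pi.basis b) x, Matrix.trace, Fintype.sum_sigma]
  refine Finset.sum_congr rfl fun i _ => ?_
  rw [Algebra.trace_eq_matrix_trace (b i) (x i), Matrix.trace]
  refine Finset.sum_congr rfl fun k _ => ?_
  rw [Matrix.diag_apply, Matrix.diag_apply, Algebra.leftMulMatrix_eq_repr_mul,
    Algebra.leftMulMatrix_eq_repr_mul, Pi.basis_repr, Pi.basis_apply]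
  simp

/-- The trace matrix of the product basis is block diagonal. -/
theorem traceMatrix_pi (b : ∀ i, Basis (κ i) S (A i)) :
    Algebra.traceMatrix S (Pi.basis b) =
      Matrix.blockDiagonal' (fun i => Algebra.traceMatrix S (b i)) := by
  ext ⟨i, k⟩ ⟨i', k'⟩
  rw [Algebra.traceMatrix_apply, Algebra.traceForm_apply, trace_pi b, Pi.basis_apply,
    Pi.basis_apply]
  by_cases h : i = i'
  · subst h
    rw [Matrix.blockDiagonal'_apply_eq, Algebra.traceMatrix_apply, Algebra.traceForm_apply,
      Finset.sum_eq_single i]
    · simp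
    · intro j _ hj
      simp [Pi.single_eq_of_ne hj]
    · intro hi
      exact absurd (Finset.mem_univ i) hi
  · rw [Matrix.blockDiagonal'_apply_ne _ _ _ h]
    apply Finset.sum_eq_zero
    intro j _
    by_cases hj : j = i
    · subst hj
      simp [Pi.single_eq_of_ne h]
    · simp [Pi.single_eq_of_ne hj]

/-- The block `k` of the sigma index type. -/
def sigmaFstEquiv (κ : η → Type*) (k : η) : κ k ≃ {a : Σ i, κ i // a.1 = k} where
  toFun x := ⟨⟨k, x⟩, rfl⟩
  invFun a := a.2 ▸ a.1.2
  left_inv _ := rfl
  right_inv := by rintro ⟨⟨i, x⟩, rfl⟩; rfl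

/-- Determinant of a dependent block diagonal matrix. -/
theorem det_blockDiagonal'_eq (d : ∀ i, Matrix (κ i) (κ i) S) :
    (Matrix.blockDiagonal' d).det = ∏ i, (d i).det := by
  classical
  let _ : LinearOrder η := LinearOrder.lift' (Fintype.equivFin η) (Fintype.equivFin η).injective
  rw [(Matrix.blockTriangular_blockDiagonal' d).det_fintype]
  refine Finset.prod_congr rfl fun k _ => ?_
  rw [← Matrix.det_submatrix_equiv_self (sigmaFstEquiv κ k)]
  congr 1
  ext x y
  simp [Matrix.toSquareBlock_def, sigmaFstEquiv]

/-- **Discriminant of a finite product** of finite free algebras. -/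
theorem discr_pi (b : ∀ i, Basis (κ i) S (A i)) :
    Algebra.discr S (Pi.basis b) = ∏ i, Algebra.discr S (b i) := by
  rw [Algebra.discr_def, traceMatrix_pi, det_blockDiagonal'_eq]
  rfl

end Pi

section Prod

variable {S : Type*} [CommRing S]
variable {A B : Type*} [CommRing A] [CommRing B] [Algebra S A] [Algebra S B]
variable {ι κ : Type*} [Fintype ι] [DecidableEq ι] [Fintype κ] [DecidableEq κ]

/-- **Discriminant of a binary product** of finite free algebras. -/
theorem discr_prod (bA : Basis ι S A) (bB : Basis κ S B) :
    Algebra.discr S (bA.prod bB) = Algebra.discr S bA * Algebra.discr S bB := by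
  have : Module.Free S A := Module.Free.of_basis bA
  have : Module.Free S B := Module.Free.of_basis bB
  have : Module.Finite S A := Module.Finite.of_basis bA
  have : Module.Finite S B := Module.Finite.of_basis bB
  have hM : Algebra.traceMatrix S (bA.prod bB) =
      Matrix.fromBlocks (Algebra.traceMatrix S bA) 0 0 (Algebra.traceMatrix S bB) := by
    ext (i | i) (j | j) <;>
      simp [Algebra.traceMatrix_apply, Algebra.traceForm_apply, Algebra.trace_prod_apply]
  rw [Algebra.discr_def, hM, Matrix.det_fromBlocks_zero₁₂]
  rfl

end Prod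

section Assoc

variable {S : Type*} [CommRing S] {A : Type*} [CommRing A] [Algebra S A]
variable {ι ι' : Type*} [Fintype ι] [DecidableEq ι] [Fintype ι'] [DecidableEq ι']

/-- Two bases (same index type) give associated discriminants. -/
theorem associated_discr_same (b b' : Basis ι S A) :
    Associated (Algebra.discr S b) (Algebra.discr S b') := by
  have h2 : (b : ι → A) = (b' : ι → A) ᵥ* (b'.toMatrix b).map (algebraMap S A) := by
    funext j
    simp only [Matrix.vecMul, dotProduct, Matrix.map_apply]
    rw [← Basis.sum_toMatrix_smul_self b' b j]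
    refine Finset.sum_congr rfl fun i _ => ?_
    rw [Algebra.smul_def, mul_comm]
  have hu : IsUnit (b'.toMatrix b).det := by
    have : b'.toMatrix b * b.toMatrix b' = 1 := Basis.toMatrix_mul_toMatrix_flip b' b
    exact IsUnit.of_mul_eq_one _ (by rw [← Matrix.det_mul, this, Matrix.det_one])
  have h3 : Algebra.discr S b = (b'.toMatrix b).det ^ 2 * Algebra.discr S b' := by
    conv_lhs => rw [h2]
    exact Algebra.discr_of_matrix_vecMul _ _
  rw [h3]
  exact (associated_isUnit_mul_left_iff (hu.pow 2)).mpr (Associated.refl _)

/-- Two bases (arbitrary finite index types) give associated discriminants. -/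
theorem associated_discr [Nontrivial S] (b : Basis ι S A) (b' : Basis ι' S A) :
    Associated (Algebra.discr S b) (Algebra.discr S b') := by
  have e : ι ≃ ι' := b.indexEquiv b'
  have h := associated_discr_same (b.reindex e) b'
  have h1 : Algebra.discr S (b.reindex e) = Algebra.discr S b := by
    have := Algebra.discr_reindex (A := S) b e
    rw [← this]
    congr 1
    funext i
    simp [Basis.reindex_apply]
  rwa [h1] at h

/-- Discriminants are transported by algebra isomorphisms, up to association. -/
theorem associated_discr_of_algEquiv [Nontrivial S] {A' : Type*} [CommRing A'] [Algebra S A']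
    (e : A ≃ₐ[S] A') (b : Basis ι S A) (b' : Basis ι' S A') :
    Associated (Algebra.discr S b) (Algebra.discr S b') := by
  have h1 : Algebra.discr S b = Algebra.discr S (b.map e.toLinearEquiv) :=
    Algebra.discr_eq_discr_of_algEquiv (b : ι → A) e
  rw [h1]
  exact associated_discr (b.map e.toLinearEquiv) b'

end Assoc

section Separable

variable {S : Type*} [CommRing S] [IsDomain S]
variable {A : Type*} [CommRing A] [IsDomain A] [Algebra S A]
variable {ι : Type*} [Fintype ι] [DecidableEq ι]

/-- A finite free domain over a domain, with separable fraction field extension, has a nonzero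
discriminant. -/
theorem discr_ne_zero_of_isSeparable (K L : Type*) [Field K] [Field L] [Algebra S K]
    [IsFractionRing S K] [Algebra A L] [IsFractionRing A L] [Algebra K L] [Algebra S L]
    [IsScalarTower S K L] [IsScalarTower S A L] [Algebra.IsSeparable K L]
    (hinj : Function.Injective (algebraMap S A)) (b : Basis ι S A) :
    Algebra.discr S b ≠ 0 := by
  have : FaithfulSMul S A := (faithfulSMul_iff_algebraMap_injective S A).mpr hinj
  have : Module.Finite S A := Module.Finite.of_basis b
  have : Algebra.IsAlgebraic S A := Algebra.IsIntegral.isAlgebraic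
  have : IsLocalization (Algebra.algebraMapSubmonoid A (nonZeroDivisors S)) L := inferInstance
  intro h0
  have h1 := Algebra.discr_localizationLocalization (Rₘ := K) S (nonZeroDivisors S) L b
  rw [h0, map_zero] at h1
  have : Module.Finite K L :=
    Module.Finite.of_basis (b.localizationLocalization K (nonZeroDivisors S) L)
  exact Algebra.discr_not_zero_of_basis K (b.localizationLocalization K (nonZeroDivisors S) L) h1

end Separable

section Numeric

variable {S : Type*} [CommRing S] [IsDomain S] [IsDiscreteValuationRing S]

open IsDiscreteValuationRing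

/-- **Numerical core of the colength count.**  If `disc C ~ (disc B)^d`, `disc Ñ_C ~ (disc Ñ_B)^d`,
`v(disc B) = v(disc Ñ_B) + 2 l_B`, `v(disc C) = v(disc Ñ_C) + 2 l_C` and `disc B ≠ 0`, then
`l_C = d * l_B`. -/
theorem colength_eq_mul (dB dC dNB dNC : S) (lB lC : ℕ∞) (d : ℕ)
    (hB : addVal S dB = addVal S dNB + 2 * lB) (hC : addVal S dC = addVal S dNC + 2 * lC)
    (h1 : Associated dC (dB ^ d)) (h2 : Associated dNC (dNB ^ d)) (h0 : dB ≠ 0) :
    lC = d * lB := by
  have hfin : addVal S dB ≠ ⊤ := fun h => h0 (addVal_eq_top_iff.mp h)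
  have e1 : addVal S dC = d * addVal S dB := by
    rw [(addVal_eq_iff_associated _ _).mpr h1, AddValuation.map_pow, nsmul_eq_mul]
  have e2 : addVal S dNC = d * addVal S dNB := by
    rw [(addVal_eq_iff_associated _ _).mpr h2, AddValuation.map_pow, nsmul_eq_mul]
  rw [hB] at hfin e1
  have hNB : addVal S dNB ≠ ⊤ := fun h => hfin (by rw [h, top_add])
  have hlB : lB ≠ ⊤ := fun h => hfin (by rw [h]; simp)
  obtain ⟨a, ha⟩ := ENat.ne_top_iff_exists.mp hNB
  obtain ⟨l, hl⟩ := ENat.ne_top_iff_exists.mp hlB
  rw [e2, ← ha] at hC
  rw [← ha, ← hl, hC] at e1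
  have hlC : lC ≠ ⊤ := by
    intro h
    rw [h] at e1
    have : ((d : ℕ∞) * (a : ℕ∞) + 2 * ⊤ : ℕ∞) = ⊤ := by simp
    rw [this] at e1
    have h3 : ((d : ℕ∞) * ((a : ℕ∞) + 2 * (l : ℕ∞))) ≠ ⊤ := by
      exact_mod_cast ENat.natCast_ne_top (d * (a + 2 * l))
    exact h3 e1.symm
  obtain ⟨c, hc⟩ := ENat.ne_top_iff_exists.mp hlC
  rw [← hc] at e1
  rw [← hc, ← hl]
  have e3 : d * a + 2 * c = d * (a + 2 * l) := by exact_mod_cast e1
  have : c = d * l := by nlinarith
  exact_mod_cast this

end Numeric

end Fermat.Agent.S34.Lib.DiscProd
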