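import Mathlib

/-!
# Two elementwise facts about Dedekind domains

* `exists_prufer`: the ideal `(a, b)` of a Dedekind domain is invertible, in the elementwise
  ("Prüfer") form: there is a partition of unity `e + f = 1` with `f * a ∈ (b)` and
  `e * b ∈ (a)`.
* `exists_local_generator`: every prime of a Dedekind domain is locally principal, in the
  elementwise form with a single denominator outside the prime.

Both are proved with ideal arithmetic only (`Ideal.dvd_iff_le` and cancellation).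
-/

set_option autoImplicit false

namespace Fermat.Agent.S34.Lib.DedekindElt

/-- Ideal form of `exists_prufer`: the two colon ideals `(a : (a, b))` and `(b : (a, b))`
are comaximal. -/
theorem exists_ideals_sup_eq_top {A : Type*} [CommRing A] [IsDedekindDomain A] (a b : A)
    (hb : b ≠ 0) :
    ∃ J₁ J₂ : Ideal A, J₁ ⊔ J₂ = ⊤ ∧
      Ideal.span {a} = (Ideal.span {a} ⊔ Ideal.span {b}) * J₁ ∧
      Ideal.span {b} = (Ideal.span {a} ⊔ Ideal.span {b}) * J₂ := by
  classical
  set I : Ideal A := Ideal.span {a} ⊔ Ideal.span {b} with hI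
  have hI0 : I ≠ ⊥ := by
    intro h
    have hbI : b ∈ I := Ideal.mem_sup_right (Ideal.mem_span_singleton_self b)
    rw [h, Ideal.mem_bot] at hbI
    exact hb hbI
  obtain ⟨J₁, hJ₁⟩ : I ∣ Ideal.span {a} := Ideal.dvd_iff_le.mpr le_sup_left
  obtain ⟨J₂, hJ₂⟩ : I ∣ Ideal.span {b} := Ideal.dvd_iff_le.mpr le_sup_right
  refine ⟨J₁, J₂, ?_, hJ₁, hJ₂⟩
  have h1 : I * (J₁ ⊔ J₂) = I * ⊤ := by
    rw [Ideal.mul_sup, ← hJ₁, ← hJ₂, Ideal.mul_top]
  exact mul_left_cancel₀ hI0 h1

/-- **Prüfer form of invertibility of `(a, b)`** in a Dedekind domain. -/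
theorem exists_prufer {A : Type*} [CommRing A] [IsDedekindDomain A] (a b : A) (hb : b ≠ 0) :
    ∃ e f g h : A, e + f = 1 ∧ f * a = h * b ∧ e * b = g * a := by
  obtain ⟨J₁, J₂, hJ, hJ₁, hJ₂⟩ := exists_ideals_sup_eq_top a b hb
  have h1 : (1 : A) ∈ J₁ ⊔ J₂ := by rw [hJ]; exact Submodule.mem_top
  obtain ⟨e, he, f, hf, hef⟩ := Submodule.mem_sup.mp h1
  have haI : a ∈ Ideal.span {a} ⊔ Ideal.span {b} :=
    Ideal.mem_sup_left (Ideal.mem_span_singleton_self a)
  have hbI : b ∈ Ideal.span {a} ⊔ Ideal.span {b} :=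
    Ideal.mem_sup_right (Ideal.mem_span_singleton_self b)
  have h2 : b * e ∈ Ideal.span {a} := by
    rw [hJ₁]; exact Ideal.mul_mem_mul hbI he
  have h3 : a * f ∈ Ideal.span {b} := by
    rw [hJ₂]; exact Ideal.mul_mem_mul haI hf
  obtain ⟨g, hg⟩ := Ideal.mem_span_singleton'.mp h2
  obtain ⟨h, hh⟩ := Ideal.mem_span_singleton'.mp h3
  refine ⟨e, f, g, h, hef, ?_, ?_⟩
  · rw [hh, mul_comm]
  · rw [hg, mul_comm]

/-- Symmetric variant of `exists_prufer` with no hypothesis on `a`, `b`: if both vanish the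
statement is trivial. -/
theorem exists_prufer' {A : Type*} [CommRing A] [IsDedekindDomain A] (a b : A) :
    ∃ e f g h : A, e + f = 1 ∧ f * a = h * b ∧ e * b = g * a := by
  by_cases hb : b = 0
  · exact ⟨1, 0, 0, 0, by simp, by simp, by simp [hb]⟩
  · exact exists_prufer a b hb

/-- A nonzero prime of a Dedekind domain is not equal to its square. -/
theorem exists_mem_notMem_sq {A : Type*} [CommRing A] [IsDedekindDomain A] (p : Ideal A)
    [p.IsPrime] (hp : p ≠ ⊥) : ∃ θ ∈ p, θ ∉ p * p := by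
  by_contra hcon
  have hle : p ≤ p * p := fun x hx => by
    by_contra hx'
    exact hcon ⟨x, hx, hx'⟩
  have heq : p * p = p * ⊤ := by
    rw [Ideal.mul_top]; exact le_antisymm Ideal.mul_le_right hle
  exact (Ideal.IsPrime.ne_top ‹p.IsPrime›) (mul_left_cancel₀ hp heq)

/-- **Local generator with a uniform denominator**: for a nonzero prime `p` of a Dedekind
domain and any `θ ∈ p \ p²` there is ONE `t ∉ p` with `t * p ⊆ (θ)`. -/
theorem exists_denominator_of_notMem_sq {A : Type*} [CommRing A] [IsDedekindDomain A]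
    (p : Ideal A) [p.IsPrime] (θ : A) (hθ : θ ∈ p) (hθ2 : θ ∉ p * p) :
    ∃ t : A, t ∉ p ∧ ∀ a ∈ p, t * a ∈ Ideal.span {θ} := by
  obtain ⟨J, hJ⟩ : p ∣ Ideal.span {θ} :=
    Ideal.dvd_iff_le.mpr ((Ideal.span_singleton_le_iff_mem p).mpr hθ)
  have hJp : ¬ J ≤ p := by
    intro hle
    apply hθ2
    have : θ ∈ p * J := by rw [← hJ]; exact Ideal.mem_span_singleton_self θ
    exact Ideal.mul_mono_right hle this
  obtain ⟨t, htJ, htp⟩ := Set.not_subset.mp hJp
  refine ⟨t, htp, fun a ha => ?_⟩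
  rw [hJ, mul_comm t a]
  exact Ideal.mul_mem_mul ha htJ

/-- A uniform-denominator version of `exists_local_generator`. -/
theorem exists_local_generator_uniform {A : Type*} [CommRing A] [IsDedekindDomain A]
    (p : Ideal A) [p.IsPrime] :
    ∃ θ ∈ p, ∃ t : A, t ∉ p ∧ ∀ a ∈ p, t * a ∈ Ideal.span {θ} := by
  by_cases hp : p = ⊥
  · refine ⟨0, p.zero_mem, 1, ?_, fun a ha => ?_⟩
    · exact fun h => (Ideal.IsPrime.ne_top ‹p.IsPrime›) ((Ideal.eq_top_iff_one p).mpr h)
    · rw [hp, Ideal.mem_bot] at ha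
      rw [ha, mul_zero]
      exact Ideal.zero_mem _
  · obtain ⟨θ, hθ, hθ2⟩ := exists_mem_notMem_sq p hp
    obtain ⟨t, ht, h⟩ := exists_denominator_of_notMem_sq p θ hθ hθ2
    exact ⟨θ, hθ, t, ht, h⟩

/-- **Every prime of a Dedekind domain is locally principal**, elementwise. -/
theorem exists_local_generator {A : Type*} [CommRing A] [IsDedekindDomain A] (p : Ideal A)
    [p.IsPrime] : ∃ θ ∈ p, ∀ a ∈ p, ∃ t : A, t ∉ p ∧ t * a ∈ Ideal.span {θ} := by
  obtain ⟨θ, hθ, t, ht, h⟩ := exists_local_generator_uniform p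
  exact ⟨θ, hθ, fun a ha => ⟨t, ht, h a ha⟩⟩

end Fermat.Agent.S34.Lib.DedekindElt
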