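import Mathlib

/-!
# PROGRAM U, (M2) sub-brick SB7: clearing denominators for integrality

Mathlib only.  `R` a commutative ring, `L` a commutative `R`-algebra (a field in the
applications), `x y c : L`.

* `exists_pow_mul_isIntegral_of_mem` : if `c ∈ R[x]` and `c * y` is integral over `R[x]`, then
  for every `b ∈ R[x, y]` all `c^n * b`, `n ≥ N`, are integral over `R[x]`.
* `exists_pow_mul_isIntegral` : the same for every `z` INTEGRAL over `R[x, y]`
  ("`c` is a denominator for the integral closure of `R[x, y]` over that of `R[x]`").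
* `isIntegral_map_ringEquiv` : an `R`-linear ring automorphism `w` carries the integral closure of
  `R[t]` onto that of `R[w t]`.
* `isIntegral_scale_of_coeff` : the scaling lemma behind the first two (a root `z` of a monic
  polynomial `p` and a scalar `s` such that the `p_i * s^(deg p - i)` are integral over `A`).
-/

set_option autoImplicit false

namespace Fermat.Agent.S34.Lib.IntDenom

open Polynomial

section Scale

variable {A A' L : Type*} [CommRing A] [CommRing A'] [CommRing L] [Algebra A L]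

/-- **Scaling a root.**  Let `z` be a root of a monic polynomial `p` over `A'` (through
`φ : A' →+* L`) and let `s : L` be such that every `φ (p_i) * s^(deg p - i)`, `i < deg p`, is
integral over `A`.  Then `s * z` is integral over `A`. -/
theorem isIntegral_scale_of_coeff (φ : A' →+* L) (p : A'[X]) (hp : p.Monic) (z s : L)
    (hz : p.eval₂ φ z = 0)
    (hs : ∀ i, i < p.natDegree → IsIntegral A (φ (p.coeff i) * s ^ (p.natDegree - i))) :
    IsIntegral A (s * z) := by
  classical
  set d := p.natDegree with hd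
  let a : Fin d → integralClosure A L := fun i => ⟨φ (p.coeff (i : ℕ)) * s ^ (d - (i : ℕ)), hs i i.2⟩
  have hroot : z ^ d + ∑ i : Fin d, φ (p.coeff (i : ℕ)) * z ^ (i : ℕ) = 0 := by
    rw [eval₂_eq_sum_range, ← hd, Finset.sum_range_succ] at hz
    rw [Fin.sum_univ_eq_sum_range (fun i => φ (p.coeff i) * z ^ i) d, add_comm]
    have h1 : p.coeff d = 1 := hp
    rw [h1, map_one, one_mul] at hz
    exact hz
  have hint : IsIntegral (integralClosure A L) (s * z) := by
    refine ⟨X ^ d + ∑ i : Fin d, C (a i) * X ^ (i : ℕ), monic_X_pow_add (degree_sum_fin_lt a), ?_⟩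
    rw [eval₂_add, eval₂_pow, eval₂_X, eval₂_finsetSum]
    have hsum : ∑ i : Fin d, eval₂ (algebraMap (integralClosure A L) L) (s * z)
        (C (a i) * X ^ (i : ℕ)) = s ^ d * ∑ i : Fin d, φ (p.coeff (i : ℕ)) * z ^ (i : ℕ) := by
      rw [Finset.mul_sum]
      refine Finset.sum_congr rfl fun i _ => ?_
      rw [eval₂_mul, eval₂_C, eval₂_pow, eval₂_X]
      show φ (p.coeff (i : ℕ)) * s ^ (d - (i : ℕ)) * (s * z) ^ (i : ℕ) = _
      have hk : s ^ d = s ^ (d - (i : ℕ)) * s ^ (i : ℕ) := by
        rw [← pow_add, Nat.sub_add_cancel i.2.le]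
      rw [hk, mul_pow]
      ring
    rw [hsum, mul_pow, ← mul_add, hroot, mul_zero]
  exact isIntegral_trans (R := A) (A := integralClosure A L) (s * z) hint

end Scale

section Denom

variable {R L : Type*} [CommRing R] [CommRing L] [Algebra R L]

/-- Elements of a subalgebra are integral over it. -/
theorem isIntegral_of_mem_subalgebra (S : Subalgebra R L) {a : L} (ha : a ∈ S) :
    IsIntegral S a :=
  (isIntegral_algebraMap : IsIntegral S (algebraMap S L ⟨a, ha⟩))

/-- If `c ∈ R[x]` and `c * y` is integral over `R[x]`, then for every `b ∈ R[x, y]` the elements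
`c^n * b`, `n ≥ N`, are integral over `R[x]`. -/
theorem exists_pow_mul_isIntegral_of_mem (x y c : L) (hc : c ∈ Algebra.adjoin R {x})
    (hcy : IsIntegral (Algebra.adjoin R {x}) (c * y)) (b : L)
    (hb : b ∈ Algebra.adjoin R {x, y}) :
    ∃ N : ℕ, ∀ n, N ≤ n → IsIntegral (Algebra.adjoin R {x}) (c ^ n * b) := by
  induction hb using Algebra.adjoin_induction with
  | mem b hb =>
    rcases hb with rfl | rfl
    · exact ⟨0, fun n _ => isIntegral_of_mem_subalgebra _
        (mul_mem (pow_mem hc n) (Algebra.subset_adjoin rfl))⟩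
    · refine ⟨1, fun n hn => ?_⟩
      have e : c ^ n * b = c ^ (n - 1) * (c * b) := by
        rw [← mul_assoc, ← pow_succ, Nat.sub_add_cancel hn]
      rw [e]
      exact (isIntegral_of_mem_subalgebra _ (pow_mem hc _)).mul hcy
  | algebraMap r =>
    exact ⟨0, fun n _ => isIntegral_of_mem_subalgebra _
      (mul_mem (pow_mem hc n) (Subalgebra.algebraMap_mem _ r))⟩
  | add b₁ b₂ _ _ ih₁ ih₂ =>
    obtain ⟨N₁, h₁⟩ := ih₁
    obtain ⟨N₂, h₂⟩ := ih₂
    refine ⟨max N₁ N₂, fun n hn => ?_⟩
    rw [mul_add]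
    exact (h₁ n ((le_max_left _ _).trans hn)).add (h₂ n ((le_max_right _ _).trans hn))
  | mul b₁ b₂ _ _ ih₁ ih₂ =>
    obtain ⟨N₁, h₁⟩ := ih₁
    obtain ⟨N₂, h₂⟩ := ih₂
    refine ⟨N₁ + N₂, fun n hn => ?_⟩
    have e : c ^ n * (b₁ * b₂) = c ^ (n - N₂) * b₁ * (c ^ N₂ * b₂) := by
      have hk : c ^ n = c ^ (n - N₂) * c ^ N₂ := by
        rw [← pow_add, Nat.sub_add_cancel (by omega)]
      rw [hk]
      ring
    rw [e]
    exact (h₁ (n - N₂) (by omega)).mul (h₂ N₂ le_rfl)

/-- **(SB7)** If `c ∈ R[x]` and `c * y` is integral over `R[x]`, then for every `z` integral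
over `R[x, y]` the elements `c^n * z`, `n ≥ N`, are integral over `R[x]`. -/
theorem exists_pow_mul_isIntegral (x y c : L) (hc : c ∈ Algebra.adjoin R {x})
    (hcy : IsIntegral (Algebra.adjoin R {x}) (c * y)) (z : L)
    (hz : IsIntegral (Algebra.adjoin R {x, y}) z) :
    ∃ N : ℕ, ∀ n, N ≤ n → IsIntegral (Algebra.adjoin R {x}) (c ^ n * z) := by
  classical
  obtain ⟨p, hp, hpz⟩ := hz
  have hex : ∀ i : ℕ, ∃ N : ℕ, ∀ n, N ≤ n →
      IsIntegral (Algebra.adjoin R {x}) (c ^ n * ((p.coeff i : Algebra.adjoin R {x, y}) : L)) :=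
    fun i => exists_pow_mul_isIntegral_of_mem x y c hc hcy _ (p.coeff i).2
  choose D hD using hex
  refine ⟨∑ i ∈ Finset.range p.natDegree, D i, fun n hn => ?_⟩
  refine isIntegral_scale_of_coeff (algebraMap (Algebra.adjoin R {x, y}) L) p hp z (c ^ n) hpz
    (fun i hi => ?_)
  have hDi : D i ≤ n * (p.natDegree - i) := by
    have h1 : D i ≤ ∑ j ∈ Finset.range p.natDegree, D j :=
      Finset.single_le_sum (f := D) (fun _ _ => Nat.zero_le _) (Finset.mem_range.mpr hi)
    have h2 : n ≤ n * (p.natDegree - i) := Nat.le_mul_of_pos_right _ (by omega)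
    omega
  rw [← pow_mul, mul_comm]
  exact hD i _ hDi

end Denom

section Equiv

variable {R L : Type*} [CommRing R] [CommRing L] [Algebra R L]

/-- **(SB7)** The image under an `R`-linear ring automorphism `w` of an element integral over
`R[t]` is integral over `R[w t]`. -/
theorem isIntegral_map_ringEquiv (w : L ≃+* L)
    (hw : ∀ r : R, w (algebraMap R L r) = algebraMap R L r) (t z : L)
    (hz : IsIntegral (Algebra.adjoin R {t}) z) : IsIntegral (Algebra.adjoin R {w t}) (w z) := by
  let wA : L →ₐ[R] L := { (w : L →+* L) with commutes' := hw }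
  have hwA : ∀ a : L, wA a = w a := fun _ => rfl
  have hmap : (Algebra.adjoin R {t}).map wA = Algebra.adjoin R {w t} := by
    rw [AlgHom.map_adjoin, Set.image_singleton, hwA]
  obtain ⟨P, hP, hPz⟩ := hz
  let g : Algebra.adjoin R {t} →+* Algebra.adjoin R {w t} :=
    { toFun := fun a => ⟨w (a : L), by
        rw [← hmap]
        exact ⟨(a : L), a.2, rfl⟩⟩
      map_one' := Subtype.ext (map_one w)
      map_mul' := fun _ _ => Subtype.ext (map_mul w _ _)
      map_zero' := Subtype.ext (map_zero w)
      map_add' := fun _ _ => Subtype.ext (map_add w _ _) }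
  refine ⟨P.map g, hP.map _, ?_⟩
  rw [eval₂_map]
  have hcomp : (algebraMap (Algebra.adjoin R {w t}) L).comp g =
      (w : L →+* L).comp (algebraMap (Algebra.adjoin R {t}) L) := RingHom.ext fun _ => rfl
  rw [hcomp, ← RingEquiv.coe_toRingHom, ← hom_eval₂, hPz, map_zero]

end Equiv

end Fermat.Agent.S34.Lib.IntDenom
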